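import Fermat.Agent.S16.H454.Main

/-!
# S16 / WP-ALG (helper454): final interface

`card_quot_of_LB_UB` reduces the frozen statement S16 (prime level `p`) to the two
modular-forms statements `(LB')` and `(UB')` about `q`-expansions of elements of
`intLattice p 2`, with `σ'(k) = sigmaPrime p k = ∑_{d ∣ k, p ∤ d} d` and
`n = eisensteinNumerator p = (p - 1) / gcd (p - 1, 12)`.
-/

set_option autoImplicit false

noncomputable section

namespace Fermat.Agent.S16.H454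

open CuspForm CongruenceSubgroup ModularFormClass ModularCurve

theorem one_le_eisensteinNumerator {p : ℕ} (hp : p.Prime) : 1 ≤ eisensteinNumerator p := by
  unfold eisensteinNumerator
  have h1 : 0 < p - 1 := by have := hp.two_le; omega
  exact Nat.div_pos (Nat.le_of_dvd h1 (Nat.gcd_dvd_left _ _))
    (Nat.gcd_pos_of_pos_left _ h1)

/-- The congruence `a_k(f) ≡ a (mod M)` in "witness" form is divisibility for `coeffZ`. -/
theorem dvd_coeffZ_sub_of_qCoeff {N : ℕ} (x : ↥(intLattice N 2)) (k : ℕ) (M a : ℤ)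
    (h : ∃ m : ℤ, qCoeff ⇑(x : CuspForm (Gamma0 N) 2) k = ((a + M * m : ℤ) : ℂ)) :
    M ∣ coeffZ N x k - a := by
  obtain ⟨m, hm⟩ := h
  rw [← coeffZ_spec, Int.cast_inj] at hm
  exact ⟨m, by rw [hm]; ring⟩

/-- **WP-ALG, general level.**  For any level `N`, Eisenstein coefficient system `s` of level
`N` and `n ≥ 1`: `(LB') ∧ (UB') → #(𝕋/J) = n`. -/
theorem card_quot_of_LB_UB_general (N : ℕ) [NeZero N] {s : ℕ → ℤ} (hs : IsEisCoeff N s)
    (n : ℕ) (hn : 1 ≤ n)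
    (LB' : ∃ h ∈ intLattice N 2, ∃ c : ℤ, IsCoprime c (n : ℤ) ∧
      ∀ k : ℕ, 1 ≤ k → ∃ m : ℤ,
        qCoeff ⇑(h : CuspForm (Gamma0 N) 2) k = ((c * s k + (n : ℤ) * m : ℤ) : ℂ))
    (UB' : ∀ M : ℕ, 1 ≤ M →
      (∃ f ∈ intLattice N 2, ∀ k : ℕ, 1 ≤ k → ∃ m : ℤ,
        qCoeff ⇑(f : CuspForm (Gamma0 N) 2) k = ((s k + (M : ℤ) * m : ℤ) : ℂ)) → M ∣ n) :
    Nat.card (↥(heckeLatticeAlgebra N ∅) ⧸
        Ideal.map ((latticeRestrictHom N ∅).toRingHom.comp (heckeEvalForms N 2))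
          (eisensteinIdeal N)) = n := by
  refine card_quot_eq hs n hn ?_ ?_
  · obtain ⟨h, hh, c, hc, hk⟩ := LB'
    exact ⟨⟨h, hh⟩, c, hc, fun k hk1 => dvd_coeffZ_sub_of_qCoeff ⟨h, hh⟩ k _ _ (hk k hk1)⟩
  · intro M hM ⟨f, hf⟩
    refine UB' M hM ⟨f.1, f.2, fun k hk => ?_⟩
    obtain ⟨m, hm⟩ := hf k hk
    refine ⟨m, ?_⟩
    rw [← coeffZ_spec, Int.cast_inj]
    linear_combination hm

/-- **WP-ALG (S16).**  The frozen statement S16 follows from `(LB')` and `(UB')`. -/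
theorem card_quot_of_LB_UB (p : ℕ) [Fact p.Prime]
    (LB' : ∃ h ∈ intLattice p 2, ∃ c : ℤ, IsCoprime c (eisensteinNumerator p : ℤ) ∧
      ∀ k : ℕ, 1 ≤ k → ∃ m : ℤ,
        qCoeff ⇑(h : CuspForm (Gamma0 p) 2) k
          = ((c * sigmaPrime p k + (eisensteinNumerator p : ℤ) * m : ℤ) : ℂ))
    (UB' : ∀ M : ℕ, 1 ≤ M →
      (∃ f ∈ intLattice p 2, ∀ k : ℕ, 1 ≤ k → ∃ m : ℤ,
        qCoeff ⇑(f : CuspForm (Gamma0 p) 2) k = ((sigmaPrime p k + (M : ℤ) * m : ℤ) : ℂ)) →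
      M ∣ eisensteinNumerator p) :
    Nat.card (↥(heckeLatticeAlgebra p ∅) ⧸
        Ideal.map ((latticeRestrictHom p ∅).toRingHom.comp (heckeEvalForms p 2))
          (eisensteinIdeal p)) =
      eisensteinNumerator p :=
  card_quot_of_LB_UB_general p (isEisCoeff_sigmaPrime Fact.out) (eisensteinNumerator p)
    (one_le_eisensteinNumerator Fact.out) LB' UB'

end Fermat.Agent.S16.H454

end
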