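import Fermat.Agent.S16.H454.Coeff

/-!
# S16 / WP-ALG (helper454): the action of `HeckeAlg = ℤ[X_ℓ]` on `intLattice N 2`.
-/

set_option autoImplicit false

noncomputable section

namespace Fermat.Agent.S16.H454

open CuspForm CongruenceSubgroup ModularFormClass ModularCurve

variable (N : ℕ) [NeZero N]

/-- The structure map `ℤ[X_ℓ] → 𝕋` appearing in the frozen statement. -/
def phi : HeckeAlg →+* ↥(heckeLatticeAlgebra N ∅) :=
  (latticeRestrictHom N ∅).toRingHom.comp (heckeEvalForms N 2)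

theorem heckeEvalForms_surjective : Function.Surjective (heckeEvalForms N 2) := by
  rintro ⟨t, ht⟩
  induction ht using Algebra.adjoin_induction with
  | mem x hx =>
    rcases hx with ⟨ℓ, hℓ, hℓN, -, rfl⟩ | ⟨q, hqN, hq, -, rfl⟩
    · exact ⟨heckeGen ⟨ℓ, hℓ⟩, by
        rw [heckeEvalForms_heckeGen_of_not_dvd (N := N) (k := 2) (ℓ := ⟨ℓ, hℓ⟩) hℓN]; rfl⟩
    · exact ⟨heckeGen ⟨q, hq⟩, by
        rw [heckeEvalForms_heckeGen_of_dvd (N := N) (k := 2) (q := ⟨q, hq⟩) hqN]; rfl⟩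
  | algebraMap r =>
    exact ⟨MvPolynomial.C r, by rw [heckeEvalForms_C]; rfl⟩
  | add x y hx hy hx' hy' =>
    obtain ⟨a, ha⟩ := hx'
    obtain ⟨b, hb⟩ := hy'
    exact ⟨a + b, by rw [map_add, ha, hb]; rfl⟩
  | mul x y hx hy hx' hy' =>
    obtain ⟨a, ha⟩ := hx'
    obtain ⟨b, hb⟩ := hy'
    exact ⟨a * b, by rw [map_mul, ha, hb]; rfl⟩

theorem phi_surjective : Function.Surjective (phi N) :=
  (latticeRestrictHom_surjective N ∅).comp (heckeEvalForms_surjective N)

/-- The action of `τ ∈ ℤ[X_ℓ]` on the lattice. -/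
def act (τ : HeckeAlg) : Module.End ℤ ↥(intLattice N 2) :=
  ((phi N τ : ↥(heckeLatticeAlgebra N ∅)) : Module.End ℤ ↥(intLattice N 2))

theorem act_one : act N 1 = 1 := by
  unfold act; rw [map_one]; rfl

theorem act_mul (τ τ' : HeckeAlg) : act N (τ * τ') = act N τ * act N τ' := by
  unfold act; rw [map_mul]; rfl

theorem act_add (τ τ' : HeckeAlg) : act N (τ + τ') = act N τ + act N τ' := by
  unfold act; rw [map_add]; rfl

theorem act_zero : act N 0 = 0 := by
  unfold act; rw [map_zero]; rfl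

theorem act_mul_apply (τ τ' : HeckeAlg) (x : ↥(intLattice N 2)) :
    act N (τ * τ') x = act N τ (act N τ' x) := by
  rw [act_mul]; rfl

theorem act_mul_apply' (τ τ' : HeckeAlg) (x : ↥(intLattice N 2)) :
    act N (τ * τ') x = act N τ' (act N τ x) := by
  rw [mul_comm, act_mul_apply]

theorem act_add_apply (τ τ' : HeckeAlg) (x : ↥(intLattice N 2)) :
    act N (τ + τ') x = act N τ x + act N τ' x := by
  rw [act_add]; rfl

theorem act_C_apply (a : ℤ) (x : ↥(intLattice N 2)) :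
    act N (MvPolynomial.C a) x = a • x := by
  unfold act phi
  rw [RingHom.comp_apply, heckeEvalForms_C]
  apply Subtype.ext
  change ((algebraMap ℤ ↥(heckeAlgebra N 2 ∅) a : ↥(heckeAlgebra N 2 ∅)) :
    Module.End ℂ (CuspForm (Gamma0 N) 2)) (x : CuspForm (Gamma0 N) 2) = _
  rw [Submodule.coe_smul]
  simp

theorem act_eq_zero_iff (τ : HeckeAlg) : act N τ = 0 ↔ phi N τ = 0 := by
  unfold act
  constructor
  · intro h
    exact Subtype.ext h
  · intro h
    rw [h]; rfl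

theorem coe_act_X_of_not_dvd {ℓ : Nat.Primes} (h : ¬ (ℓ : ℕ) ∣ N) (x : ↥(intLattice N 2)) :
    ((act N (MvPolynomial.X ℓ) x : ↥(intLattice N 2)) : CuspForm (Gamma0 N) 2)
      = heckeTLin 2 ℓ.2 h (x : CuspForm (Gamma0 N) 2) := by
  unfold act phi
  rw [RingHom.comp_apply]
  have := heckeEvalForms_heckeGen_of_not_dvd (N := N) (k := 2) h
  unfold heckeGen at this
  rw [this]
  rfl

theorem coe_act_X_of_dvd {q : Nat.Primes} (h : (q : ℕ) ∣ N) (x : ↥(intLattice N 2)) :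
    ((act N (MvPolynomial.X q) x : ↥(intLattice N 2)) : CuspForm (Gamma0 N) 2)
      = heckeULin 2 h (x : CuspForm (Gamma0 N) 2) := by
  unfold act phi
  rw [RingHom.comp_apply]
  have := heckeEvalForms_heckeGen_of_dvd (N := N) (k := 2) h
  unfold heckeGen at this
  rw [this]
  rfl

theorem coeffZ_act_X_of_not_dvd {ℓ : Nat.Primes} (h : ¬ (ℓ : ℕ) ∣ N) (x : ↥(intLattice N 2))
    (k : ℕ) :
    coeffZ N (act N (MvPolynomial.X ℓ) x) k
      = coeffZ N x (k * ℓ) + if (ℓ : ℕ) ∣ k then (ℓ : ℤ) * coeffZ N x (k / ℓ) else 0 := by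
  rw [coeffZ_eq_iff, coe_act_X_of_not_dvd N h, Fermat.Agent.S49.glue_qCoeff_heckeTLin ℓ.2 h]
  split_ifs <;> push_cast <;> simp [coeffZ_spec]

theorem coeffZ_act_X_of_dvd {q : Nat.Primes} (h : (q : ℕ) ∣ N) (x : ↥(intLattice N 2))
    (k : ℕ) :
    coeffZ N (act N (MvPolynomial.X q) x) k = coeffZ N x (k * q) := by
  rw [coeffZ_eq_iff, coe_act_X_of_dvd N h, Fermat.Agent.S49.glue_qCoeff_heckeULin q.2 h,
    coeffZ_spec]

end Fermat.Agent.S16.H454

end
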