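import Fermat.Agent.S16.H454.Final
import Fermat.Agent.S16.H127.Bridge1

/-!
# S16 / WP-ALG (helper454): adapters to the frozen S16 interface

* `result_of_lattice` : `UBLattice p → LBLattice p → (frozen S16 statement)`
  (`UBLattice`, `LBLattice` from `Fermat.Agent.S16.H127.Bridge1`);
* `result_of_forms`   : the skeleton statement of WP ALG,
  `HasEis p → CuspCrit p → UpperBound p → LowerBound p → (frozen S16 statement)`
  (no restriction on the prime `p`).
-/

set_option autoImplicit false

noncomputable section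

namespace Fermat.Agent.S16.H454

open CuspForm CongruenceSubgroup ModularFormClass ModularCurve

theorem sigmaPrime_eq_sigmaP (p k : ℕ) :
    sigmaPrime p k = ((Fermat.Agent.S16.sigmaP p k : ℕ) : ℤ) := by
  unfold sigmaPrime divisorsPrime Fermat.Agent.S16.sigmaP
  rw [Nat.cast_sum]

/-- WP ALG in lattice shape: `(UB') ∧ (LB') →` frozen S16 statement. -/
theorem result_of_lattice (p : ℕ) [Fact p.Prime]
    (hUB : Fermat.Agent.S16.H127.UBLattice p) (hLB : Fermat.Agent.S16.H127.LBLattice p) :
    Nat.card (↥(heckeLatticeAlgebra p ∅) ⧸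
        Ideal.map ((latticeRestrictHom p ∅).toRingHom.comp (heckeEvalForms p 2))
          (eisensteinIdeal p)) =
      eisensteinNumerator p := by
  apply card_quot_of_LB_UB
  · obtain ⟨h, hh, c, hc, hk⟩ := hLB
    refine ⟨h, hh, c, hc, fun k hk1 => ?_⟩
    obtain ⟨z, hz⟩ := hk k hk1
    refine ⟨z, ?_⟩
    rw [hz, sigmaPrime_eq_sigmaP]
    push_cast
    rfl
  · intro M hM ⟨f, hf, hk⟩
    refine hUB M hM ⟨f, hf, fun k hk1 => ?_⟩
    obtain ⟨z, hz⟩ := hk k hk1
    refine ⟨z, ?_⟩
    rw [hz, sigmaPrime_eq_sigmaP]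
    push_cast
    rfl

/-- **WP ALG (skeleton statement `result_of_forms`).** -/
theorem result_of_forms (p : ℕ) [Fact p.Prime]
    (hE : Fermat.Agent.S16.HasEis p) (hC : Fermat.Agent.S16.CuspCrit p)
    (hUB : Fermat.Agent.S16.UpperBound p) (hLB : Fermat.Agent.S16.LowerBound p) :
    Nat.card (↥(heckeLatticeAlgebra p ∅) ⧸
        Ideal.map ((latticeRestrictHom p ∅).toRingHom.comp (heckeEvalForms p 2))
          (eisensteinIdeal p)) =
      eisensteinNumerator p :=
  Fermat.Agent.S16.H127.goal_of_forms p (fun hU hL => result_of_lattice p hU hL) hE hC hUB hLB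

end Fermat.Agent.S16.H454

end
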