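import Fermat.Prelude.Def_CuspForm_HeckeLocal
import Fermat.Prelude.Def_CuspForm_HeckeEvalForms
import Fermat.Prelude.Def_HeckeGalois_EichlerShimura
import Fermat.Agent.S49.Glue

/-!
# S16 / WP-ALG (helper454): integral q-coefficient API on `intLattice N 2`
and the action of the abstract Hecke algebra `HeckeAlg = ℤ[X_ℓ]` on it.
-/

set_option autoImplicit false

noncomputable section

namespace Fermat.Agent.S16.H454

open CuspForm CongruenceSubgroup ModularFormClass ModularCurve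

variable (N : ℕ)

/-- Every element of the integral lattice has integral `q`-coefficients. -/
theorem exists_int_qCoeff (x : ↥(intLattice N 2)) (k : ℕ) :
    ∃ m : ℤ, qCoeff ⇑(x : CuspForm (Gamma0 N) 2) k = (m : ℂ) :=
  (P2MW.S_CuspForm_intLattice_fg.W3WsD.mem_intLattice_iff _).mp x.2 k

/-- The `k`-th `q`-coefficient of an element of the integral lattice, as an integer. -/
def coeffZ (x : ↥(intLattice N 2)) (k : ℕ) : ℤ := (exists_int_qCoeff N x k).choose

theorem coeffZ_spec (x : ↥(intLattice N 2)) (k : ℕ) :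
    ((coeffZ N x k : ℤ) : ℂ) = qCoeff ⇑(x : CuspForm (Gamma0 N) 2) k :=
  (exists_int_qCoeff N x k).choose_spec.symm

theorem coeffZ_eq_iff (x : ↥(intLattice N 2)) (k : ℕ) (m : ℤ) :
    coeffZ N x k = m ↔ qCoeff ⇑(x : CuspForm (Gamma0 N) 2) k = (m : ℂ) := by
  rw [← coeffZ_spec]
  exact Int.cast_inj.symm

theorem coeffZ_add (x y : ↥(intLattice N 2)) (k : ℕ) :
    coeffZ N (x + y) k = coeffZ N x k + coeffZ N y k := by
  rw [coeffZ_eq_iff, Int.cast_add, coeffZ_spec, coeffZ_spec]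
  exact Fermat.Agent.S49.glue_qCoeff_add _ _ _

theorem coeffZ_zsmul (a : ℤ) (x : ↥(intLattice N 2)) (k : ℕ) :
    coeffZ N (a • x) k = a * coeffZ N x k := by
  have h : ((a • x : ↥(intLattice N 2)) : CuspForm (Gamma0 N) 2)
      = (a : ℂ) • (x : CuspForm (Gamma0 N) 2) := by
    rw [Submodule.coe_smul]
    exact (Int.cast_smul_eq_zsmul ℂ a _).symm
  rw [coeffZ_eq_iff, h, Fermat.Agent.S49.glue_qCoeff_smul, Int.cast_mul, coeffZ_spec]

theorem coeffZ_zero_idx (x : ↥(intLattice N 2)) : coeffZ N x 0 = 0 := by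
  rw [coeffZ_eq_iff, Int.cast_zero]
  exact Fermat.Agent.S49.glue_qCoeff_zero_idx _

/-- `q`-expansion principle on the lattice. -/
theorem eq_zero_of_coeffZ (x : ↥(intLattice N 2)) (h : ∀ k, 1 ≤ k → coeffZ N x k = 0) :
    x = 0 := by
  apply Subtype.ext
  apply Fermat.Agent.S49.glue_eq_zero_of_qCoeff
  intro k
  rcases Nat.eq_zero_or_pos k with hk | hk
  · subst hk
    exact Fermat.Agent.S49.glue_qCoeff_zero_idx _
  · rw [← coeffZ_spec, h k hk]
    simp

/-- The `k`-th coefficient functional. -/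
def coeffLin (k : ℕ) : ↥(intLattice N 2) →ₗ[ℤ] ℤ where
  toFun x := coeffZ N x k
  map_add' x y := coeffZ_add N x y k
  map_smul' a x := by
    simp only [coeffZ_zsmul, eq_intCast, Int.cast_id, smul_eq_mul]

@[simp] theorem coeffLin_apply (k : ℕ) (x : ↥(intLattice N 2)) :
    coeffLin N k x = coeffZ N x k := rfl

/-- Saturation: an element all of whose coefficients are divisible by `m ≠ 0` is `m` times
an element of the lattice. -/
theorem exists_eq_zsmul_of_dvd_coeffZ (m : ℤ) (hm : m ≠ 0) (x : ↥(intLattice N 2))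
    (h : ∀ k, 1 ≤ k → m ∣ coeffZ N x k) : ∃ y : ↥(intLattice N 2), x = m • y := by
  have hmC : (m : ℂ) ≠ 0 := Int.cast_ne_zero.mpr hm
  have hy : ((m : ℂ)⁻¹ • (x : CuspForm (Gamma0 N) 2)) ∈ intLattice N 2 := by
    rw [P2MW.S_CuspForm_intLattice_fg.W3WsD.mem_intLattice_iff]
    intro k
    rcases Nat.eq_zero_or_pos k with hk | hk
    · subst hk
      exact ⟨0, by rw [Fermat.Agent.S49.glue_qCoeff_zero_idx]; simp⟩
    · obtain ⟨c, hc⟩ := h k hk
      refine ⟨c, ?_⟩
      rw [Fermat.Agent.S49.glue_qCoeff_smul, ← coeffZ_spec, hc]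
      push_cast
      field_simp
  refine ⟨⟨_, hy⟩, Subtype.ext ?_⟩
  rw [Submodule.coe_smul]
  change (x : CuspForm (Gamma0 N) 2) = m • ((m : ℂ)⁻¹ • (x : CuspForm (Gamma0 N) 2))
  rw [← Int.cast_smul_eq_zsmul ℂ m, smul_smul, mul_inv_cancel₀ hmC, one_smul]

end Fermat.Agent.S16.H454

end
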