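import Mathlib

/-!
# S16 / WP-ALG (helper454): a saturated family of functionals spans the dual

Let `L` be a finite free `ℤ`-module and `c i : L →ₗ[ℤ] ℤ` a family of functionals such that
for every prime `ℓ`, an element `x` with `ℓ ∣ c i x` for all `i` lies in `ℓ L`.
Then the `c i` span `Module.Dual ℤ L`.
-/

set_option autoImplicit false

namespace Fermat.Agent.S16.H454

open Module

/-- A submodule `C` of a finitely generated `ℤ`-module `D` with `C + ℓ D = D` for all primes `ℓ`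
is everything. -/
theorem eq_top_of_forall_prime_sup {D : Type*} [AddCommGroup D] [Module.Finite ℤ D]
    (C : Submodule ℤ D)
    (h : ∀ ℓ : ℕ, ℓ.Prime → ∀ d : D, ∃ γ ∈ C, ∃ μ : D, d = γ + (ℓ : ℤ) • μ) : C = ⊤ := by
  have hfg : (⊤ : Submodule ℤ (D ⧸ C)).FG := Module.Finite.fg_top
  have key : ∀ ℓ : ℕ, ℓ.Prime →
      ∃ r : ℤ, r - 1 ∈ Ideal.span {(ℓ : ℤ)} ∧ ∀ q : D ⧸ C, r • q = 0 := by
    intro ℓ hℓ
    obtain ⟨r, hr1, hr2⟩ := Submodule.exists_sub_one_mem_and_smul_eq_zero_of_fg_of_le_smul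
      (Ideal.span {(ℓ : ℤ)}) (⊤ : Submodule ℤ (D ⧸ C)) hfg (by
        intro q _
        obtain ⟨d, rfl⟩ := Submodule.Quotient.mk_surjective C q
        obtain ⟨γ, hγ, μ, rfl⟩ := h ℓ hℓ d
        have : (Submodule.Quotient.mk (γ + (ℓ : ℤ) • μ) : D ⧸ C)
            = (ℓ : ℤ) • Submodule.Quotient.mk μ := by
          rw [Submodule.Quotient.mk_add, Submodule.Quotient.mk_smul,
            (Submodule.Quotient.mk_eq_zero C).mpr hγ, zero_add]
        rw [this]
        exact Submodule.smul_mem_smul (Ideal.subset_span rfl) trivial)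
    exact ⟨r, hr1, fun q => hr2 q trivial⟩
  set A : Ideal ℤ := Module.annihilator ℤ (D ⧸ C) with hA
  set a : ℤ := Submodule.IsPrincipal.generator A with ha
  have haA : a ∈ A := Submodule.IsPrincipal.generator_mem A
  have hdvd : ∀ r ∈ A, a ∣ r := fun r hr => by
    rw [← Ideal.mem_span_singleton, ha, Ideal.span_singleton_generator]
    exact hr
  by_cases h1 : a.natAbs = 1
  · -- `a` is a unit, so the quotient is trivial
    have h1A : (1 : ℤ) ∈ A := by
      rcases Int.natAbs_eq a with h | h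
      · rw [h1] at h
        rw [h] at haA
        simpa using haA
      · rw [h1] at h
        rw [h] at haA
        simpa using A.neg_mem haA
    rw [eq_top_iff]
    intro d _
    have := Module.mem_annihilator.mp h1A (Submodule.Quotient.mk d : D ⧸ C)
    rw [one_smul] at this
    exact (Submodule.Quotient.mk_eq_zero C).mp this
  · exfalso
    obtain ⟨ℓ, hℓ, hℓa⟩ := Nat.exists_prime_and_dvd h1
    obtain ⟨r, hr1, hr2⟩ := key ℓ hℓ
    have hrA : r ∈ A := Module.mem_annihilator.mpr hr2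
    have h2 : (ℓ : ℤ) ∣ r := dvd_trans (Int.natCast_dvd.mpr hℓa) (hdvd r hrA)
    have h3 : (ℓ : ℤ) ∣ r - 1 := Ideal.mem_span_singleton.mp hr1
    have h4 : (ℓ : ℤ) ∣ 1 := by
      have := dvd_sub h2 h3
      simpa using this
    have h5 : ℓ ∣ 1 := by exact_mod_cast h4
    exact hℓ.one_lt.ne' (Nat.dvd_one.mp h5)

section modPrime

variable {L : Type*} [AddCommGroup L] {ι : Type*} (b : Basis ι ℤ L)
  (ℓ : ℕ) [Fact ℓ.Prime]

/-- The reduction mod `ℓ` of the coordinate vector of a functional. -/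
noncomputable def vecMod (f : Module.Dual ℤ L) : ι → ZMod ℓ := fun i => ((f (b i) : ℤ) : ZMod ℓ)

theorem vecMod_add (f g : Module.Dual ℤ L) : vecMod b ℓ (f + g) = vecMod b ℓ f + vecMod b ℓ g := by
  funext i
  simp [vecMod]

theorem vecMod_zero : vecMod b ℓ (0 : Module.Dual ℤ L) = 0 := by
  funext i
  simp [vecMod]

theorem vecMod_smul (a : ℤ) (f : Module.Dual ℤ L) :
    vecMod b ℓ (a • f) = (a : ZMod ℓ) • vecMod b ℓ f := by
  funext i
  simp [vecMod]

variable [Fintype ι] {κ : Type*} (c : κ → Module.Dual ℤ L)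

theorem span_vecMod_eq_top
    (hsat : ∀ x : L, (∀ i, (ℓ : ℤ) ∣ c i x) → ∃ y : L, x = (ℓ : ℤ) • y) :
    Submodule.span (ZMod ℓ) (Set.range fun k => vecMod b ℓ (c k)) = ⊤ := by
  classical
  by_contra hne
  obtain ⟨f, hf0, hfW⟩ := Submodule.exists_le_ker_of_lt_top _ (lt_top_iff_ne_top.mpr hne)
  -- lift the coefficients of `f`
  let xbar : ι → ZMod ℓ := fun i => f (Pi.single i 1)
  have hf : ∀ v : ι → ZMod ℓ, f v = ∑ i, v i * xbar i := by
    intro v
    conv_lhs => rw [← Finset.univ_sum_single v]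
    rw [map_sum]
    refine Finset.sum_congr rfl fun i _ => ?_
    have : (Pi.single i (v i) : ι → ZMod ℓ) = v i • Pi.single i 1 := by
      rw [← Pi.single_smul, smul_eq_mul, mul_one]
    rw [this, map_smul, smul_eq_mul]
  let x : ι → ℤ := fun i => (xbar i).cast
  have hx : ∀ i, ((x i : ℤ) : ZMod ℓ) = xbar i := fun i => ZMod.intCast_zmod_cast _
  let y : L := ∑ i, x i • b i
  have hy : ∀ k, (ℓ : ℤ) ∣ c k y := by
    intro k
    rw [← ZMod.intCast_zmod_eq_zero_iff_dvd]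
    have hk : vecMod b ℓ (c k) ∈ LinearMap.ker f := hfW (Submodule.subset_span ⟨k, rfl⟩)
    rw [LinearMap.mem_ker, hf] at hk
    rw [← hk]
    simp only [y, map_sum, map_smul, smul_eq_mul, Int.cast_sum, Int.cast_mul, hx, vecMod]
    exact Finset.sum_congr rfl fun i _ => mul_comm _ _
  obtain ⟨y', hy'⟩ := hsat y hy
  have hrepr : ∀ i, x i = (ℓ : ℤ) * b.repr y' i := by
    intro i
    have h1 : b.repr y i = x i := by
      simp only [y]
      rw [b.repr_sum_self]
    rw [← h1, hy', map_smul, Finsupp.smul_apply, smul_eq_mul]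
  apply hf0
  apply LinearMap.ext
  intro v
  rw [hf, LinearMap.zero_apply]
  refine Finset.sum_eq_zero fun i _ => ?_
  rw [← hx i, hrepr i]
  simp

omit [Fintype ι] in
theorem exists_mem_span_vecMod_eq (w : ι → ZMod ℓ)
    (hw : w ∈ Submodule.span (ZMod ℓ) (Set.range fun k => vecMod b ℓ (c k))) :
    ∃ γ ∈ Submodule.span ℤ (Set.range c), vecMod b ℓ γ = w := by
  induction hw using Submodule.span_induction with
  | mem w hw =>
    obtain ⟨k, rfl⟩ := hw
    exact ⟨c k, Submodule.subset_span ⟨k, rfl⟩, rfl⟩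
  | zero => exact ⟨0, Submodule.zero_mem _, vecMod_zero b ℓ⟩
  | add w w' _ _ ih ih' =>
    obtain ⟨γ, hγ, rfl⟩ := ih
    obtain ⟨γ', hγ', rfl⟩ := ih'
    exact ⟨γ + γ', Submodule.add_mem _ hγ hγ', vecMod_add b ℓ γ γ'⟩
  | smul a w _ ih =>
    obtain ⟨γ, hγ, rfl⟩ := ih
    refine ⟨(a.cast : ℤ) • γ, Submodule.smul_mem _ _ hγ, ?_⟩
    rw [vecMod_smul, ZMod.intCast_zmod_cast]

include b in
theorem exists_decomp_mod_prime
    (hsat : ∀ x : L, (∀ i, (ℓ : ℤ) ∣ c i x) → ∃ y : L, x = (ℓ : ℤ) • y)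
    (f : Module.Dual ℤ L) :
    ∃ γ ∈ Submodule.span ℤ (Set.range c), ∃ μ : Module.Dual ℤ L, f = γ + (ℓ : ℤ) • μ := by
  have hℓ0 : (ℓ : ℤ) ≠ 0 := by
    have := (Fact.out : ℓ.Prime).pos
    positivity
  have hmem : vecMod b ℓ f ∈ Submodule.span (ZMod ℓ) (Set.range fun k => vecMod b ℓ (c k)) := by
    rw [span_vecMod_eq_top b ℓ c hsat]
    trivial
  obtain ⟨γ, hγ, hγf⟩ := exists_mem_span_vecMod_eq b ℓ c _ hmem
  have hdvd : ∀ i, (ℓ : ℤ) ∣ (f - γ) (b i) := by
    intro i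
    rw [← ZMod.intCast_zmod_eq_zero_iff_dvd, LinearMap.sub_apply, Int.cast_sub, sub_eq_zero]
    exact (congrFun hγf i).symm
  refine ⟨γ, hγ, b.constr ℤ (fun i => (f - γ) (b i) / (ℓ : ℤ)), ?_⟩
  apply b.ext
  intro i
  rw [LinearMap.add_apply, LinearMap.smul_apply, Basis.constr_basis, smul_eq_mul,
    Int.mul_ediv_cancel' (hdvd i), LinearMap.sub_apply]
  ring

end modPrime

/-- **Duality lemma.** A saturated family of functionals on a finite free `ℤ`-module spans the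
dual. -/
theorem span_eq_top_of_saturated {L : Type*} [AddCommGroup L] [Module.Free ℤ L]
    [Module.Finite ℤ L] {κ : Type*} (c : κ → Module.Dual ℤ L)
    (hsat : ∀ ℓ : ℕ, ℓ.Prime → ∀ x : L, (∀ i, (ℓ : ℤ) ∣ c i x) → ∃ y : L, x = (ℓ : ℤ) • y) :
    Submodule.span ℤ (Set.range c) = ⊤ := by
  apply eq_top_of_forall_prime_sup
  intro ℓ hℓ f
  have : Fact ℓ.Prime := ⟨hℓ⟩
  exact exists_decomp_mod_prime (Module.Free.chooseBasis ℤ L) ℓ c (hsat ℓ hℓ) f

end Fermat.Agent.S16.H454
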