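import Mathlib

/-!
# S16 / WP-ALG (helper454): Eisenstein coefficient systems

`IsEisCoeff N s` : `s` satisfies the Hecke recursions of the weight-2 Eisenstein eigen-system of
level `N` (eigenvalue `1 + ℓ` for `T_ℓ`, `ℓ ∤ N`; eigenvalue `1` for `U_q`, `q ∣ N`).

`sigmaPrime p k = ∑_{d ∣ k, p ∤ d} d` is the concrete system for prime level `p`.
-/

set_option autoImplicit false

namespace Fermat.Agent.S16.H454

/-- `s` satisfies the Hecke recursions of the weight-2 Eisenstein eigen-system of level `N`. -/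
structure IsEisCoeff (N : ℕ) (s : ℕ → ℤ) : Prop where
  one : s 1 = 1
  mul_of_dvd : ∀ q : ℕ, q.Prime → q ∣ N → ∀ k : ℕ, 1 ≤ k → s (k * q) = s k
  mul_of_not_dvd : ∀ ℓ : ℕ, ℓ.Prime → ¬ ℓ ∣ N → ∀ k : ℕ, 1 ≤ k →
    s (k * ℓ) + (if ℓ ∣ k then (ℓ : ℤ) * s (k / ℓ) else 0) = (1 + (ℓ : ℤ)) * s k

/-- The divisors of `k` prime to `p`. -/
def divisorsPrime (p k : ℕ) : Finset ℕ := k.divisors.filter (fun d => ¬ p ∣ d)

/-- Sum of the divisors of `k` that are prime to `p`. -/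
def sigmaPrime (p k : ℕ) : ℤ := ∑ d ∈ divisorsPrime p k, (d : ℤ)

theorem mem_divisorsPrime {p k d : ℕ} :
    d ∈ divisorsPrime p k ↔ d ∣ k ∧ k ≠ 0 ∧ ¬ p ∣ d := by
  simp [divisorsPrime, Nat.mem_divisors, and_assoc]

theorem sigmaPrime_one {p : ℕ} (hp : p.Prime) : sigmaPrime p 1 = 1 := by
  have h : divisorsPrime p 1 = {1} := by
    ext d
    rw [mem_divisorsPrime, Finset.mem_singleton]
    constructor
    · rintro ⟨h1, -, -⟩
      exact Nat.dvd_one.mp h1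
    · rintro rfl
      exact ⟨dvd_rfl, one_ne_zero, fun h => hp.one_lt.ne' (Nat.dvd_one.mp h)⟩
  simp [sigmaPrime, h]

theorem divisorsPrime_mul_self {p : ℕ} (hp : p.Prime) {k : ℕ} (hk : 1 ≤ k) :
    divisorsPrime p (k * p) = divisorsPrime p k := by
  ext d
  rw [mem_divisorsPrime, mem_divisorsPrime]
  constructor
  · rintro ⟨h1, -, h3⟩
    have hcop : Nat.Coprime d p := ((Nat.Prime.coprime_iff_not_dvd hp).mpr h3).symm
    exact ⟨hcop.dvd_of_dvd_mul_right h1, by omega, h3⟩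
  · rintro ⟨h1, h2, h3⟩
    exact ⟨Dvd.dvd.mul_right h1 p, Nat.mul_ne_zero h2 hp.ne_zero, h3⟩

theorem sigmaPrime_mul_self {p : ℕ} (hp : p.Prime) {k : ℕ} (hk : 1 ≤ k) :
    sigmaPrime p (k * p) = sigmaPrime p k := by
  unfold sigmaPrime
  rw [divisorsPrime_mul_self hp hk]

theorem divisorsPrime_mul_prime {p ℓ : ℕ} (hp : p.Prime) (hℓ : ℓ.Prime) (hne : ℓ ≠ p) {k : ℕ}
    (hk : 1 ≤ k) :
    divisorsPrime p (k * ℓ) = divisorsPrime p k ∪ (divisorsPrime p k).image (fun d => ℓ * d) := by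
  have hpl : ¬ p ∣ ℓ := fun h => hne ((Nat.prime_dvd_prime_iff_eq hp hℓ).mp h).symm
  ext d
  rw [Finset.mem_union, Finset.mem_image, mem_divisorsPrime, mem_divisorsPrime]
  constructor
  · rintro ⟨h1, -, h3⟩
    by_cases hd : ℓ ∣ d
    · right
      obtain ⟨d', rfl⟩ := hd
      refine ⟨d', ?_, rfl⟩
      rw [mem_divisorsPrime]
      refine ⟨?_, by omega, fun h => h3 (Dvd.dvd.mul_left h ℓ)⟩
      rw [mul_comm k ℓ] at h1
      exact Nat.dvd_of_mul_dvd_mul_left hℓ.pos h1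
    · left
      have hcop : Nat.Coprime d ℓ := ((Nat.Prime.coprime_iff_not_dvd hℓ).mpr hd).symm
      exact ⟨hcop.dvd_of_dvd_mul_right h1, by omega, h3⟩
  · rintro (⟨h1, h2, h3⟩ | ⟨d', hd', rfl⟩)
    · exact ⟨Dvd.dvd.mul_right h1 ℓ, Nat.mul_ne_zero h2 hℓ.ne_zero, h3⟩
    · rw [mem_divisorsPrime] at hd'
      obtain ⟨h1, h2, h3⟩ := hd'
      refine ⟨?_, Nat.mul_ne_zero h2 hℓ.ne_zero, ?_⟩
      · rw [mul_comm k ℓ]
        exact Nat.mul_dvd_mul_left ℓ h1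
      · intro h
        rcases (Nat.Prime.dvd_mul hp).mp h with h | h
        · exact hpl h
        · exact h3 h

theorem divisorsPrime_inter {p ℓ : ℕ} (hp : p.Prime) (hℓ : ℓ.Prime) (hne : ℓ ≠ p) {k : ℕ}
    (hk : 1 ≤ k) :
    divisorsPrime p k ∩ (divisorsPrime p k).image (fun d => ℓ * d)
      = if ℓ ∣ k then (divisorsPrime p (k / ℓ)).image (fun d => ℓ * d) else ∅ := by
  have hpl : ¬ p ∣ ℓ := fun h => hne ((Nat.prime_dvd_prime_iff_eq hp hℓ).mp h).symm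
  split_ifs with hℓk
  · ext d
    rw [Finset.mem_inter, Finset.mem_image, Finset.mem_image]
    constructor
    · rintro ⟨hd, d', hd', rfl⟩
      refine ⟨d', ?_, rfl⟩
      rw [mem_divisorsPrime] at hd hd' ⊢
      obtain ⟨h1, h2, h3⟩ := hd
      refine ⟨?_, ?_, hd'.2.2⟩
      · obtain ⟨m, rfl⟩ := hℓk
        rw [Nat.mul_div_cancel_left _ hℓ.pos]
        exact Nat.dvd_of_mul_dvd_mul_left hℓ.pos h1
      · obtain ⟨m, rfl⟩ := hℓk
        rw [Nat.mul_div_cancel_left _ hℓ.pos]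
        rintro rfl
        simp at h2
    · rintro ⟨d', hd', rfl⟩
      rw [mem_divisorsPrime] at hd'
      obtain ⟨h1, h2, h3⟩ := hd'
      obtain ⟨m, rfl⟩ := hℓk
      rw [Nat.mul_div_cancel_left _ hℓ.pos] at h1 h2
      have hd'' : d' ∈ divisorsPrime p (ℓ * m) := by
        rw [mem_divisorsPrime]
        exact ⟨Dvd.dvd.mul_left h1 ℓ, by omega, h3⟩
      refine ⟨?_, d', hd'', rfl⟩
      rw [mem_divisorsPrime]
      refine ⟨Nat.mul_dvd_mul_left ℓ h1, by omega, ?_⟩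
      intro h
      rcases (Nat.Prime.dvd_mul hp).mp h with h | h
      · exact hpl h
      · exact h3 h
  · ext d
    rw [Finset.mem_inter, Finset.mem_image]
    constructor
    · rintro ⟨hd, d', hd', rfl⟩
      rw [mem_divisorsPrime] at hd
      exact absurd (dvd_trans (Dvd.intro _ rfl) hd.1) hℓk
    · intro h
      simp at h

theorem sum_image_mul {ℓ : ℕ} (hℓ : ℓ.Prime) (D : Finset ℕ) :
    ∑ d ∈ D.image (fun d => ℓ * d), (d : ℤ) = (ℓ : ℤ) * ∑ d ∈ D, (d : ℤ) := by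
  rw [Finset.sum_image (fun a _ b _ h => Nat.eq_of_mul_eq_mul_left hℓ.pos h), Finset.mul_sum]
  exact Finset.sum_congr rfl fun d _ => by push_cast; ring

theorem sigmaPrime_mul_prime {p ℓ : ℕ} (hp : p.Prime) (hℓ : ℓ.Prime) (hne : ℓ ≠ p) {k : ℕ}
    (hk : 1 ≤ k) :
    sigmaPrime p (k * ℓ) + (if ℓ ∣ k then (ℓ : ℤ) * sigmaPrime p (k / ℓ) else 0)
      = (1 + (ℓ : ℤ)) * sigmaPrime p k := by
  have h := Finset.sum_union_inter (s₁ := divisorsPrime p k)
    (s₂ := (divisorsPrime p k).image (fun d => ℓ * d)) (f := fun d => (d : ℤ))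
  rw [← divisorsPrime_mul_prime hp hℓ hne hk, divisorsPrime_inter hp hℓ hne hk,
    sum_image_mul hℓ] at h
  unfold sigmaPrime
  split_ifs with hℓk
  · rw [if_pos hℓk, sum_image_mul hℓ] at h
    rw [h]; ring
  · rw [if_neg hℓk, Finset.sum_empty] at h
    rw [h]; ring

theorem isEisCoeff_sigmaPrime {p : ℕ} (hp : p.Prime) : IsEisCoeff p (sigmaPrime p) where
  one := sigmaPrime_one hp
  mul_of_dvd q hq hqp k hk := by
    have : q = p := (Nat.prime_dvd_prime_iff_eq hq hp).mp hqp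
    subst this
    exact sigmaPrime_mul_self hp hk
  mul_of_not_dvd ℓ hℓ hℓp k hk := by
    have hne : ℓ ≠ p := by
      rintro rfl
      exact hℓp dvd_rfl
    exact sigmaPrime_mul_prime hp hℓ hne hk

end Fermat.Agent.S16.H454
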