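import Fermat.Agent.S16.H454.Action
import Fermat.Agent.S16.H454.Sigma

/-!
# S16 / WP-ALG (helper454): Eisenstein congruences are propagated by the Hecke action,
and the Hecke elements `τ_k` with `a_1(τ_k x) = a_k(x)`.
-/

set_option autoImplicit false

noncomputable section

namespace Fermat.Agent.S16.H454

open CuspForm CongruenceSubgroup ModularFormClass ModularCurve

variable (N : ℕ)

/-- Evaluation at the Eisenstein eigen-system. -/
def ev : HeckeAlg →+* ℤ := (MvPolynomial.aeval (R := ℤ) (eisensteinSystem N)).toRingHom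

theorem ev_C (a : ℤ) : ev N (MvPolynomial.C a) = a := by
  unfold ev
  simp

theorem ev_X_of_dvd {q : Nat.Primes} (h : (q : ℕ) ∣ N) : ev N (MvPolynomial.X q) = 1 := by
  unfold ev
  simp [eisensteinSystem_of_dvd h]

theorem ev_X_of_not_dvd {ℓ : Nat.Primes} (h : ¬ (ℓ : ℕ) ∣ N) :
    ev N (MvPolynomial.X ℓ) = 1 + ((ℓ : ℕ) : ℤ) := by
  unfold ev
  simp [eisensteinSystem_of_not_dvd h]

theorem mem_eisensteinIdeal_iff (τ : HeckeAlg) : τ ∈ eisensteinIdeal N ↔ ev N τ = 0 := by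
  unfold eisensteinIdeal
  rw [mem_eigenIdeal_iff]
  rfl

theorem ev_surjective : Function.Surjective (ev N) := fun a => ⟨MvPolynomial.C a, ev_C N a⟩

variable {N} [NeZero N]

/-- Key propagation lemma: if `x ≡ a · s (mod n)` coefficientwise then
`τ x ≡ ev(τ) · a · s (mod n)` coefficientwise. -/
theorem dvd_coeffZ_act_sub {s : ℕ → ℤ} (hs : IsEisCoeff N s) (n : ℤ) (τ : HeckeAlg) :
    ∀ (x : ↥(intLattice N 2)) (a : ℤ),
      (∀ k, 1 ≤ k → n ∣ coeffZ N x k - a * s k) →
      ∀ k, 1 ≤ k → n ∣ coeffZ N (act N τ x) k - ev N τ * a * s k := by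
  induction τ using MvPolynomial.induction_on with
  | C b =>
    intro x a hx k hk
    rw [act_C_apply, coeffZ_zsmul, ev_C]
    obtain ⟨c, hc⟩ := hx k hk
    exact ⟨b * c, by linear_combination b * hc⟩
  | add τ τ' ih ih' =>
    intro x a hx k hk
    rw [act_add_apply, coeffZ_add, map_add]
    obtain ⟨c, hc⟩ := ih x a hx k hk
    obtain ⟨c', hc'⟩ := ih' x a hx k hk
    exact ⟨c + c', by linear_combination hc + hc'⟩
  | mul_X τ ℓ ih =>
    intro x a hx k hk
    rw [act_mul_apply, map_mul]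
    have key : ∀ k, 1 ≤ k →
        n ∣ coeffZ N (act N (MvPolynomial.X ℓ) x) k - (ev N (MvPolynomial.X ℓ) * a) * s k := by
      intro k hk
      by_cases hℓ : (ℓ : ℕ) ∣ N
      · rw [coeffZ_act_X_of_dvd N hℓ, ev_X_of_dvd N hℓ, one_mul,
          ← hs.mul_of_dvd ℓ ℓ.2 hℓ k hk]
        exact hx _ (Nat.mul_pos hk ℓ.2.pos)
      · rw [coeffZ_act_X_of_not_dvd N hℓ, ev_X_of_not_dvd N hℓ]
        obtain ⟨c1, h1⟩ := hx _ (Nat.mul_pos hk ℓ.2.pos)
        have hrec := hs.mul_of_not_dvd ℓ ℓ.2 hℓ k hk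
        by_cases hℓk : (ℓ : ℕ) ∣ k
        · rw [if_pos hℓk] at hrec ⊢
          have hk' : 1 ≤ k / ℓ := Nat.div_pos (Nat.le_of_dvd hk hℓk) ℓ.2.pos
          obtain ⟨c2, h2⟩ := hx _ hk'
          exact ⟨c1 + ((ℓ : ℕ) : ℤ) * c2, by
            linear_combination h1 + ((ℓ : ℕ) : ℤ) * h2 + a * hrec⟩
        · rw [if_neg hℓk] at hrec ⊢
          exact ⟨c1, by linear_combination h1 + a * hrec⟩
    obtain ⟨c, hc⟩ := ih _ _ key k hk
    exact ⟨c, by linear_combination hc⟩

/-- Lower bound, algebraic form: if some lattice element is congruent mod `n` to a unit multiple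
of the Eisenstein system, then `n ∣ ev τ` for every `τ` in the kernel of `ℤ[X] → 𝕋`. -/
theorem dvd_ev_of_phi_eq_zero {s : ℕ → ℤ} (hs : IsEisCoeff N s) (n : ℤ)
    (h : ↥(intLattice N 2)) (c : ℤ) (hc : IsCoprime c n)
    (hh : ∀ k, 1 ≤ k → n ∣ coeffZ N h k - c * s k)
    (τ : HeckeAlg) (hτ : phi N τ = 0) : n ∣ ev N τ := by
  have h0 : act N τ = 0 := (act_eq_zero_iff N τ).mpr hτ
  have h1 := dvd_coeffZ_act_sub hs n τ h c hh 1 le_rfl
  rw [h0, hs.one, mul_one] at h1
  have h2 : coeffZ N ((0 : Module.End ℤ ↥(intLattice N 2)) h) 1 = 0 := by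
    rw [LinearMap.zero_apply]
    exact (coeffLin N 1).map_zero
  rw [h2, zero_sub, dvd_neg] at h1
  exact hc.symm.dvd_of_dvd_mul_right h1

/-- The Hecke elements `τ_k`: `a_1(τ_k x) = a_k(x)` and `ev τ_k = s k`. -/
theorem exists_tau {s : ℕ → ℤ} (hs : IsEisCoeff N s) (k : ℕ) (hk : 1 ≤ k) :
    ∃ τ : HeckeAlg, (∀ x : ↥(intLattice N 2), coeffZ N (act N τ x) 1 = coeffZ N x k) ∧
      ev N τ = s k := by
  induction k using Nat.strong_induction_on with
  | _ k ih =>
    rcases Nat.lt_or_ge k 2 with hk2 | hk2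
    · have : k = 1 := by omega
      subst this
      refine ⟨1, fun x => ?_, ?_⟩
      · rw [act_one]; rfl
      · rw [map_one, hs.one]
    · have hk1 : k ≠ 1 := by omega
      have hℓ : (k.minFac).Prime := Nat.minFac_prime hk1
      obtain ⟨m, hm⟩ := Nat.minFac_dvd k
      have hmpos : 1 ≤ m := by
        rcases Nat.eq_zero_or_pos m with h | h
        · subst h; omega
        · exact h
      have hmlt : m < k := by
        have := hℓ.one_lt
        nlinarith
      have hkm : m * k.minFac = k := by rw [mul_comm]; exact hm.symm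
      obtain ⟨τ, hτ1, hτ2⟩ := ih m hmlt hmpos
      set ℓ : Nat.Primes := ⟨k.minFac, hℓ⟩ with hℓdef
      have hℓv : (ℓ : ℕ) = k.minFac := rfl
      by_cases hℓN : (ℓ : ℕ) ∣ N
      · refine ⟨τ * MvPolynomial.X ℓ, fun x => ?_, ?_⟩
        · rw [act_mul_apply, hτ1, coeffZ_act_X_of_dvd N hℓN, hℓv, hkm]
        · rw [map_mul, hτ2, ev_X_of_dvd N hℓN, mul_one, ← hkm]
          exact (hs.mul_of_dvd ℓ ℓ.2 hℓN m hmpos).symm
      · have hrec := hs.mul_of_not_dvd ℓ ℓ.2 hℓN m hmpos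
        rw [hℓv, hkm] at hrec
        by_cases hℓm : (ℓ : ℕ) ∣ m
        · have hm' : 1 ≤ m / ℓ := Nat.div_pos (Nat.le_of_dvd hmpos hℓm) ℓ.2.pos
          have hm'lt : m / ℓ < k := lt_of_le_of_lt (Nat.div_le_self _ _) hmlt
          obtain ⟨τ', hτ'1, hτ'2⟩ := ih (m / ℓ) hm'lt hm'
          rw [if_pos hℓm] at hrec
          refine ⟨τ * MvPolynomial.X ℓ + MvPolynomial.C (-((ℓ : ℕ) : ℤ)) * τ', fun x => ?_, ?_⟩
          · rw [act_add_apply, coeffZ_add, act_mul_apply, hτ1, coeffZ_act_X_of_not_dvd N hℓN,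
              if_pos hℓm, act_mul_apply, act_C_apply, coeffZ_zsmul, hτ'1, hℓv, hkm]
            ring
          · rw [map_add, map_mul, map_mul, hτ2, hτ'2, ev_X_of_not_dvd N hℓN, ev_C]
            linear_combination -hrec
        · rw [if_neg hℓm] at hrec
          refine ⟨τ * MvPolynomial.X ℓ, fun x => ?_, ?_⟩
          · rw [act_mul_apply, hτ1, coeffZ_act_X_of_not_dvd N hℓN, if_neg hℓm, hℓv, hkm,
              add_zero]
          · rw [map_mul, hτ2, ev_X_of_not_dvd N hℓN]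
            linear_combination -hrec

end Fermat.Agent.S16.H454

end
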