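import Fermat.Agent.S16.H454.Upper
import Fermat.Prelude.Def_ModularCurve_ModularUnit

/-!
# S16 / WP-ALG (helper454): the reduction of S16 to `(LB')` and `(UB')`

`card_quot_eq` : for any level `N`, any Eisenstein coefficient system `s` and any `n ≥ 1`,
if
* `(LB)` some lattice element is congruent mod `n` to `c · s` with `c` prime to `n`, and
* `(UB)` every `M ≥ 1` such that `s` is realised mod `M` by a lattice element divides `n`,
then `#(𝕋 / J) = n`, where `J` is the image of the Eisenstein ideal.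
-/

set_option autoImplicit false

noncomputable section

namespace Fermat.Agent.S16.H454

open CuspForm CongruenceSubgroup ModularFormClass ModularCurve

variable {N : ℕ} [NeZero N]

/-- There is `τ₀ ∈ ker φ` with `ev τ₀ = n`. -/
theorem exists_ker_ev_eq {s : ℕ → ℤ} (hs : IsEisCoeff N s) (n : ℕ) (hn : 1 ≤ n)
    (hLB : ∀ τ : HeckeAlg, phi N τ = 0 → (n : ℤ) ∣ ev N τ)
    (UB : ∀ M : ℕ, 1 ≤ M →
      (∃ f : ↥(intLattice N 2), ∀ k, 1 ≤ k → (M : ℤ) ∣ coeffZ N f k - s k) → M ∣ n) :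
    ∃ τ₀ : HeckeAlg, phi N τ₀ = 0 ∧ ev N τ₀ = n := by
  set 𝔞 : Ideal ℤ := Ideal.map (ev N) (RingHom.ker (phi N)) with h𝔞
  set m₀ : ℤ := Submodule.IsPrincipal.generator 𝔞 with hm₀def
  have hm₀ : m₀ ∈ 𝔞 := Submodule.IsPrincipal.generator_mem 𝔞
  obtain ⟨τ₁, hτ₁, hev⟩ := (Ideal.mem_map_iff_of_surjective (ev N) (ev_surjective N)).mp hm₀
  have hτ₁' : phi N τ₁ = 0 := RingHom.mem_ker.mp hτ₁
  have hdiv : ∀ τ, phi N τ = 0 → m₀ ∣ ev N τ := fun τ hτ => by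
    rw [← Ideal.mem_span_singleton, hm₀def, Ideal.span_singleton_generator]
    exact Ideal.mem_map_of_mem _ (RingHom.mem_ker.mpr hτ)
  have hn_m : (n : ℤ) ∣ m₀ := by
    rw [← hev]
    exact hLB τ₁ hτ₁'
  have hm_n : m₀.natAbs ∣ n := by
    by_cases h0 : m₀.natAbs = 0
    · exfalso
      have hm0 : m₀ = 0 := Int.natAbs_eq_zero.mp h0
      have h1 := UB (n + 1) (by omega) (exists_lattice_congr_of_ker_le hs _ (fun τ hτ => by
        have := hdiv τ hτ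
        rw [hm0, zero_dvd_iff] at this
        rw [this]
        exact dvd_zero _))
      have := Nat.le_of_dvd (by omega) h1
      omega
    · apply UB _ (Nat.pos_of_ne_zero h0)
      apply exists_lattice_congr_of_ker_le hs
      intro τ hτ
      exact Int.natAbs_dvd.mpr (hdiv τ hτ)
  have hmn : m₀.natAbs = n := Nat.dvd_antisymm hm_n (Int.natCast_dvd.mp hn_m)
  rcases Int.natAbs_eq m₀ with h | h
  · exact ⟨τ₁, hτ₁', by rw [hev, h, hmn]⟩
  · refine ⟨-τ₁, by rw [map_neg, hτ₁', neg_zero], ?_⟩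
    rw [map_neg, hev, h, hmn, neg_neg]

theorem phi_sub_C_mul (τ τ₀ : HeckeAlg) (m : ℤ) (h : phi N τ₀ = 0) :
    phi N (τ - MvPolynomial.C m * τ₀) = phi N τ := by
  rw [map_sub, map_mul, h, mul_zero, sub_zero]

/-- The character `𝕋 → ℤ/n` induced by the Eisenstein system. -/
theorem exists_eisenstein_character (n : ℕ)
    (hLB : ∀ τ : HeckeAlg, phi N τ = 0 → (n : ℤ) ∣ ev N τ) :
    ∃ χ : ↥(heckeLatticeAlgebra N ∅) →+* ZMod n,
      ∀ τ : HeckeAlg, χ (phi N τ) = ((ev N τ : ℤ) : ZMod n) := by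
  have hg : RingHom.ker (phi N) ≤ RingHom.ker ((Int.castRingHom (ZMod n)).comp (ev N)) := by
    intro τ hτ
    rw [RingHom.mem_ker] at hτ ⊢
    rw [RingHom.comp_apply]
    exact (ZMod.intCast_zmod_eq_zero_iff_dvd _ _).mpr (hLB τ hτ)
  exact ⟨(phi N).liftOfSurjective (phi_surjective N) ⟨_, hg⟩,
    fun τ => RingHom.liftOfSurjective_comp_apply (phi N) (phi_surjective N) ⟨_, hg⟩ τ⟩

theorem ker_eisenstein_character (n : ℕ) (χ : ↥(heckeLatticeAlgebra N ∅) →+* ZMod n)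
    (hχ : ∀ τ : HeckeAlg, χ (phi N τ) = ((ev N τ : ℤ) : ZMod n))
    (τ₀ : HeckeAlg) (hτ₀ : phi N τ₀ = 0) (hev₀ : ev N τ₀ = n) :
    RingHom.ker χ = Ideal.map (phi N) (eisensteinIdeal N) := by
  apply le_antisymm
  · intro r hr
    obtain ⟨τ, rfl⟩ := phi_surjective N r
    rw [RingHom.mem_ker, hχ] at hr
    obtain ⟨m, hm⟩ := (ZMod.intCast_zmod_eq_zero_iff_dvd _ _).mp hr
    rw [← phi_sub_C_mul τ τ₀ m hτ₀]
    apply Ideal.mem_map_of_mem
    rw [mem_eisensteinIdeal_iff, map_sub, map_mul, ev_C, hev₀, hm]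
    ring
  · rw [Ideal.map_le_iff_le_comap]
    intro τ hτ
    rw [Ideal.mem_comap, RingHom.mem_ker, hχ]
    rw [mem_eisensteinIdeal_iff] at hτ
    rw [hτ, Int.cast_zero]

theorem surjective_eisenstein_character (n : ℕ) (χ : ↥(heckeLatticeAlgebra N ∅) →+* ZMod n)
    (hχ : ∀ τ : HeckeAlg, χ (phi N τ) = ((ev N τ : ℤ) : ZMod n)) :
    Function.Surjective χ := by
  intro z
  obtain ⟨a, rfl⟩ := ZMod.intCast_surjective z
  exact ⟨phi N (MvPolynomial.C a), by rw [hχ, ev_C]⟩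

/-- **WP-ALG, abstract form.** -/
theorem card_quot_eq {s : ℕ → ℤ} (hs : IsEisCoeff N s) (n : ℕ) (hn : 1 ≤ n)
    (LB : ∃ h : ↥(intLattice N 2), ∃ c : ℤ, IsCoprime c (n : ℤ) ∧
      ∀ k, 1 ≤ k → (n : ℤ) ∣ coeffZ N h k - c * s k)
    (UB : ∀ M : ℕ, 1 ≤ M →
      (∃ f : ↥(intLattice N 2), ∀ k, 1 ≤ k → (M : ℤ) ∣ coeffZ N f k - s k) → M ∣ n) :
    Nat.card (↥(heckeLatticeAlgebra N ∅) ⧸ Ideal.map (phi N) (eisensteinIdeal N)) = n := by
  obtain ⟨h, c, hc, hh⟩ := LB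
  have hLB : ∀ τ : HeckeAlg, phi N τ = 0 → (n : ℤ) ∣ ev N τ :=
    fun τ hτ => dvd_ev_of_phi_eq_zero hs (n : ℤ) h c hc hh τ hτ
  obtain ⟨τ₀, hτ₀, hev₀⟩ := exists_ker_ev_eq hs n hn hLB UB
  have : NeZero n := ⟨by omega⟩
  obtain ⟨χ, hχ⟩ := exists_eisenstein_character (N := N) n hLB
  rw [← ker_eisenstein_character n χ hχ τ₀ hτ₀ hev₀,
    Nat.card_congr (RingHom.quotientKerEquivOfSurjective
      (surjective_eisenstein_character n χ hχ)).toEquiv,
    Nat.card_zmod]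

end Fermat.Agent.S16.H454

end
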