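import Fermat.Agent.S16.H454.Lower
import Fermat.Agent.S16.H454.DualSpan

/-!
# S16 / WP-ALG (helper454): Hecke duality and the upper-bound reduction

`Θ τ = a_1(τ · )` identifies `ℤ[X]/ker φ` with `Hom(L, ℤ)`; consequently every additive character
of `ℤ[X]/ker φ` mod `M` is realised by a lattice element mod `M`.
-/

set_option autoImplicit false

noncomputable section

namespace Fermat.Agent.S16.H454

open CuspForm CongruenceSubgroup ModularFormClass ModularCurve

variable (N : ℕ) [NeZero N]

/-- The pairing map `Θ τ = (x ↦ a_1(τ x))`. -/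
def theta (τ : HeckeAlg) : Module.Dual ℤ ↥(intLattice N 2) :=
  (coeffLin N 1).comp (act N τ)

theorem theta_apply (τ : HeckeAlg) (x : ↥(intLattice N 2)) :
    theta N τ x = coeffZ N (act N τ x) 1 := rfl

theorem theta_add (τ τ' : HeckeAlg) : theta N (τ + τ') = theta N τ + theta N τ' := by
  ext x
  simp only [theta_apply, LinearMap.add_apply, act_add_apply, coeffZ_add]

theorem theta_zero : theta N 0 = 0 := by
  ext x
  rw [theta_apply, act_zero]
  exact (coeffLin N 1).map_zero

theorem theta_C_mul (a : ℤ) (τ : HeckeAlg) :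
    theta N (MvPolynomial.C a * τ) = a • theta N τ := by
  ext x
  simp only [theta_apply, LinearMap.smul_apply, act_mul_apply, act_C_apply, coeffZ_zsmul,
    smul_eq_mul]

/-- The coefficient functionals span the dual of the lattice. -/
theorem span_coeffLin_eq_top :
    Submodule.span ℤ (Set.range (coeffLin N)) = ⊤ := by
  have := intLattice.moduleFinite N
  have := intLattice.moduleFree N
  apply span_eq_top_of_saturated
  intro ℓ hℓ x hx
  have hℓ0 : ((ℓ : ℕ) : ℤ) ≠ 0 := by
    have := hℓ.pos
    positivity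
  exact exists_eq_zsmul_of_dvd_coeffZ N _ hℓ0 x fun k _ => hx k

variable {N}

/-- `Θ` is surjective. -/
theorem theta_surjective {s : ℕ → ℤ} (hs : IsEisCoeff N s) (f : Module.Dual ℤ ↥(intLattice N 2)) :
    ∃ τ : HeckeAlg, theta N τ = f := by
  have hf : f ∈ Submodule.span ℤ (Set.range (coeffLin N)) := by
    rw [span_coeffLin_eq_top]
    trivial
  induction hf using Submodule.span_induction with
  | mem f hf =>
    obtain ⟨k, rfl⟩ := hf
    rcases Nat.eq_zero_or_pos k with hk | hk
    · subst hk
      refine ⟨0, ?_⟩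
      rw [theta_zero]
      ext x
      exact (coeffZ_zero_idx N x).symm
    · obtain ⟨τ, hτ, -⟩ := exists_tau hs k hk
      exact ⟨τ, LinearMap.ext fun x => hτ x⟩
  | zero => exact ⟨0, theta_zero N⟩
  | add f g _ _ ihf ihg =>
    obtain ⟨τ, rfl⟩ := ihf
    obtain ⟨τ', rfl⟩ := ihg
    exact ⟨τ + τ', theta_add N τ τ'⟩
  | smul a f _ ih =>
    obtain ⟨τ, rfl⟩ := ih
    exact ⟨MvPolynomial.C a * τ, theta_C_mul N a τ⟩

/-- The kernel of `Θ` is the kernel of `φ`. -/
theorem phi_eq_zero_of_theta_eq_zero {s : ℕ → ℤ} (hs : IsEisCoeff N s) (τ : HeckeAlg)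
    (h : theta N τ = 0) : phi N τ = 0 := by
  rw [← act_eq_zero_iff]
  apply LinearMap.ext
  intro x
  rw [LinearMap.zero_apply]
  apply eq_zero_of_coeffZ
  intro k hk
  obtain ⟨τk, hτk, -⟩ := exists_tau hs k hk
  rw [← hτk, ← act_mul_apply, act_mul_apply', ← theta_apply, h, LinearMap.zero_apply]

/-- Upper bound, algebraic form: if `M ∣ ev τ` for every `τ ∈ ker φ`, then the Eisenstein system
is realised mod `M` by a lattice element. -/
theorem exists_lattice_congr_of_ker_le {s : ℕ → ℤ} (hs : IsEisCoeff N s) (M : ℤ)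
    (hker : ∀ τ : HeckeAlg, phi N τ = 0 → M ∣ ev N τ) :
    ∃ f : ↥(intLattice N 2), ∀ k, 1 ≤ k → M ∣ coeffZ N f k - s k := by
  classical
  have := intLattice.moduleFinite N
  have := intLattice.moduleFree N
  let b := Module.Free.chooseBasis ℤ ↥(intLattice N 2)
  -- preimages of the coordinate functionals
  choose t ht using fun i => theta_surjective hs (b.coord i)
  let f : ↥(intLattice N 2) := ∑ i, ev N (t i) • b i
  have hmain : ∀ τ : HeckeAlg, M ∣ theta N τ f - ev N τ := by
    intro τ
    -- `τ - Σ (Θ τ)(b i) τ^i ∈ ker Θ = ker φ`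
    let τ' : HeckeAlg := τ + ∑ i, MvPolynomial.C (-(theta N τ (b i))) * t i
    have hsum : ∀ (S : Finset (Module.Free.ChooseBasisIndex ℤ ↥(intLattice N 2))),
        theta N (∑ i ∈ S, MvPolynomial.C (-(theta N τ (b i))) * t i)
          = ∑ i ∈ S, (-(theta N τ (b i))) • b.coord i := by
      intro S
      induction S using Finset.induction_on with
      | empty => simp [theta_zero]
      | insert i S hi ih =>
        rw [Finset.sum_insert hi, Finset.sum_insert hi, theta_add, ih, theta_C_mul, ht]
    have hτ' : theta N τ' = 0 := by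
      simp only [τ']
      rw [theta_add, hsum]
      have := b.sum_dual_apply_smul_coord (theta N τ)
      simp only [neg_smul, Finset.sum_neg_distrib]
      rw [this, add_neg_cancel]
    have h1 := hker τ' (phi_eq_zero_of_theta_eq_zero hs τ' hτ')
    have h2 : ev N τ' = ev N τ - theta N τ f := by
      simp only [τ', f, map_add, map_sum, map_mul, ev_C, map_smul, smul_eq_mul]
      rw [sub_eq_add_neg, ← Finset.sum_neg_distrib]
      congr 1
      exact Finset.sum_congr rfl fun i _ => by ring
    rw [h2] at h1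
    obtain ⟨c, hc⟩ := h1
    exact ⟨-c, by linear_combination -hc⟩
  refine ⟨f, fun k hk => ?_⟩
  obtain ⟨τk, hτk, hτk'⟩ := exists_tau hs k hk
  have := hmain τk
  rwa [theta_apply, hτk, hτk'] at this

end Fermat.Agent.S16.H454

end
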